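import Fermat.Agent.S48.Group.Defs
import Fermat.Agent.S48.Group.C2.Klein
import Fermat.Agent.S48.Group.C2.Fix

/-! # S48, block (C): (C2) Jordan's bound for `GL₂` -/

set_option autoImplicit false

namespace Fermat.Agent.S48

open Polynomial
open scoped LinearAlgebra.Projectivization

variable {k : Type*} [Field k]

/-- **(C2)** (Jordan for `GL₂`, via the count of fixed points on `ℙ¹(k)`): if the characteristic
does not divide `#G`, some line has a stabiliser of index `≤ 12`. -/
theorem exists_lineStab_index_le [IsAlgClosed k]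
    (G : Subgroup (GL (Fin 2) k)) [Finite G]
    (hchar : ∀ ℓ : ℕ, ℓ.Prime → (ℓ : k) = 0 → ¬ ℓ ∣ Nat.card G) :
    ∃ v : Fin 2 → k, v ≠ 0 ∧ Nat.card G ≤ 12 * Nat.card (lineStab G v) := by
  have hN : ((Nat.card G : ℕ) : k) ≠ 0 := by
    intro h0
    have hdvd : ringChar k ∣ Nat.card G := (ringChar.spec k _).1 h0
    rcases CharP.char_is_prime_or_zero k (ringChar k) with hp | hp
    · exact hchar _ hp (ringChar.Nat.cast_ringChar) hdvd
    · rw [hp, zero_dvd_iff] at hdvd
      exact Nat.card_pos.ne' hdvd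
  have hne : Nonempty (ℙ k (Fin 2 → k)) :=
    ⟨Projectivization.mk k (fun _ => 1) (fun h => one_ne_zero (congrFun h 0))⟩
  obtain ⟨x, hx⟩ := C2.klein (Γ := G) (X := ℙ k (Fin 2 → k)) (fun g =>
    C2.fixedBy_ncard (g : GL (Fin 2) k) (m := Nat.card G)
      (by rw [← Subgroup.coe_pow, pow_card_eq_one', Subgroup.coe_one]) hN)
  induction x using Projectivization.ind with
  | h v hv =>
    refine ⟨v, hv, ?_⟩
    have hcard : Nat.card (MulAction.stabilizer G (Projectivization.mk k v hv)) =
        Nat.card (lineStab G v) :=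
      Nat.card_congr
        ⟨fun g => ⟨g.1.1, g.1.2, (C2.smul_mk_eq_iff g.1.1 hv).1 g.2⟩,
          fun g => ⟨⟨g.1, g.2.1⟩, (C2.smul_mk_eq_iff g.1 hv).2 g.2.2⟩,
          fun _ => rfl, fun _ => rfl⟩
    rwa [hcard] at hx

end Fermat.Agent.S48
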