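import Fermat.Agent.S48.Group.Defs

/-! # S48, block (C): (C3) groups stabilising a line -/

set_option autoImplicit false

namespace Fermat.Agent.S48

open Polynomial

/-- abstract counting: `f : B →* M`, `q : M → β` at most 2-to-1, at least half of the elements
of `B` have `q (f g) ∈ P`.  Then `#(range f) ≤ 4 #P`. -/
theorem card_range_le_of_half {B M β : Type*} [Group B] [Finite B] [Group M] (f : B →* M)
    (q : M → β) (σ : M → M) (P : Finset β)
    (hq : ∀ x y : M, q x = q y → x = y ∨ x = σ y)
    (hP : 2 * Nat.card {g : B // q (f g) ∉ P} ≤ Nat.card B) :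
    Nat.card f.range ≤ 4 * P.card := by
  classical
  have := Fintype.ofFinite B
  set Good : Finset B := Finset.univ.filter (fun g => q (f g) ∈ P) with hGood
  set κ : ℕ := (Finset.univ.filter (fun g : B => f g = 1)).card with hκ
  set T : Finset M := Good.image f with hT
  have h1 : Good.card ≤ κ * T.card := by
    refine Finset.card_le_mul_card_image Good κ (fun b hb => ?_)
    obtain ⟨g, -, rfl⟩ := Finset.mem_image.1 hb
    rw [hκ, ← MonoidHom.card_fiber_eq_of_mem_range f (x := f g) (y := 1) ⟨g, rfl⟩ ⟨1, map_one f⟩]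
    exact Finset.card_le_card (fun x hx => by
      simp only [Finset.mem_filter, Finset.mem_univ, true_and] at hx ⊢
      exact hx.2)
  have h2 : T.card ≤ 2 * P.card := by
    have h2a : T.card ≤ 2 * (T.image q).card := by
      refine Finset.card_le_mul_card_image T 2 (fun b hb => ?_)
      obtain ⟨x₀, -, rfl⟩ := Finset.mem_image.1 hb
      refine le_trans (Finset.card_le_card (t := {x₀, σ x₀}) (fun x hx => ?_)) Finset.card_le_two
      simp only [Finset.mem_filter] at hx
      simp only [Finset.mem_insert, Finset.mem_singleton]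
      exact hq x x₀ hx.2
    have h2b : (T.image q).card ≤ P.card := by
      refine Finset.card_le_card (fun b hb => ?_)
      obtain ⟨x, hx, rfl⟩ := Finset.mem_image.1 hb
      obtain ⟨g, hg, rfl⟩ := Finset.mem_image.1 hx
      exact (Finset.mem_filter.1 hg).2
    omega
  have h3 : Nat.card B = κ * Nat.card f.range := by
    rw [← f.ker.card_mul_index, Subgroup.index_ker]
    congr 1
    rw [Nat.card_eq_fintype_card, hκ, Fintype.card_subtype]
    congr 1
    ext x
    simp [MonoidHom.mem_ker]
  have h4 : Nat.card {g : B // q (f g) ∉ P} + Good.card = Nat.card B := by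
    rw [Nat.card_eq_fintype_card, Nat.card_eq_fintype_card, Fintype.card_subtype, add_comm, hGood,
      Finset.card_filter_add_card_filter_not, Finset.card_univ]
  have hκpos : 0 < κ := Finset.card_pos.2 ⟨1, by simp⟩
  have h5 : κ * Nat.card f.range ≤ κ * (4 * P.card) := by
    calc κ * Nat.card f.range = Nat.card B := h3.symm
      _ ≤ 2 * Good.card := by omega
      _ ≤ 2 * (κ * T.card) := by omega
      _ ≤ 2 * (κ * (2 * P.card)) := by
          exact Nat.mul_le_mul_left 2 (Nat.mul_le_mul_left κ h2)
      _ = κ * (4 * P.card) := by ring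
  exact Nat.le_of_mul_le_mul_left h5 hκpos


variable {k : Type*} [Field k]

/-- an eigenvalue is a root of the characteristic polynomial (`2 × 2`) -/
theorem trace_eq_of_mulVec (M : Matrix (Fin 2) (Fin 2) k) {v : Fin 2 → k} (hv : v ≠ 0) {c : k}
    (h : M.mulVec v = c • v) : c ^ 2 - M.trace * c + M.det = 0 := by
  have h1 : (Matrix.scalar (Fin 2) c - M).det = 0 := by
    rw [← Matrix.exists_mulVec_eq_zero_iff]
    refine ⟨v, hv, ?_⟩
    rw [Matrix.sub_mulVec, h]
    ext i
    simp [Matrix.scalar_apply]
  rw [Matrix.det_fin_two] at h1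
  rw [Matrix.det_fin_two, Matrix.trace_fin_two]
  simp [Matrix.scalar_apply] at h1
  linear_combination h1

/-- the eigenvalue character on the invariant line -/
theorem exists_eigChar (B : Subgroup (GL (Fin 2) k)) (v : Fin 2 → k) (hv : v ≠ 0)
    (hB : lineStab B v = B) :
    ∃ c : B →* kˣ, ∀ g : B,
      ((g : GL (Fin 2) k) : Matrix (Fin 2) (Fin 2) k).mulVec v = ((c g : kˣ) : k) • v := by
  have hex : ∀ g : B, ∃ c : kˣ,
      ((g : GL (Fin 2) k) : Matrix (Fin 2) (Fin 2) k).mulVec v = (c : k) • v := by
    intro g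
    have hg : (g : GL (Fin 2) k) ∈ lineStab B v := by rw [hB]; exact g.2
    obtain ⟨-, c, hc, h⟩ := hg
    exact ⟨Units.mk0 c hc, h⟩
  choose c hc using hex
  refine ⟨MonoidHom.mk' c (fun a b => ?_), hc⟩
  have h1 := hc (a * b)
  rw [Subgroup.coe_mul, Units.val_mul, ← Matrix.mulVec_mulVec, hc b, Matrix.mulVec_smul, hc a,
    smul_smul] at h1
  have h2 := smul_left_injective k hv h1
  apply Units.ext
  rw [Units.val_mul, ← h2, mul_comm]

/-- the polynomial with given roots -/
noncomputable def rootsPoly (x : kˣ × kˣ) : k[X] := (X - C (x.1 : k)) * (X - C (x.2 : k))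

theorem rootsPoly_eq_imp (x y : kˣ × kˣ) (h : rootsPoly x = rootsPoly y) :
    x = y ∨ x = Prod.swap y := by
  obtain ⟨a, b⟩ := x
  obtain ⟨a', b'⟩ := y
  have h0 := congrArg (Polynomial.eval 0) h
  have h1 := congrArg (Polynomial.eval 1) h
  simp only [rootsPoly, eval_mul, eval_sub, eval_X, eval_C] at h0 h1
  have hs : (a : k) + b = a' + b' := by linear_combination h0 - h1
  have hz : ((a : k) - a') * ((a : k) - b') = 0 := by
    linear_combination (a : k) * hs - h0
  rcases mul_eq_zero.1 hz with hz | hz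
  · left
    have e1 : (a : k) = a' := sub_eq_zero.1 hz
    have e2 : (b : k) = b' := by linear_combination hs - e1
    exact Prod.ext (Units.ext e1) (Units.ext e2)
  · right
    have e1 : (a : k) = b' := sub_eq_zero.1 hz
    have e2 : (b : k) = a' := by linear_combination hs - e1
    exact Prod.ext (Units.ext e1) (Units.ext e2)

/-- **(C3)** a group `B` stabilising a line, at least half of whose elements have their
characteristic polynomial in `P`: the eigenvalues of all elements of `B` are killed by some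
`n ≤ 4 * #P`.  (The image of `B` in `kˣ × kˣ` has at most two elements with a given
characteristic polynomial; the fibres of `B → kˣ × kˣ` have the same size.) -/
theorem exists_exponent_of_lineStab
    (B : Subgroup (GL (Fin 2) k)) [Finite B] (v : Fin 2 → k) (hv : v ≠ 0)
    (hB : lineStab B v = B) (P : Finset k[X])
    (hP : 2 * Nat.card {g : B // ((g : GL (Fin 2) k) : Matrix (Fin 2) (Fin 2) k).charpoly ∉ P} ≤
      Nat.card B) :
    ∃ n : ℕ, 0 < n ∧ n ≤ 4 * P.card ∧ ∀ g ∈ B, ∀ α : k,
      ((g : GL (Fin 2) k) : Matrix (Fin 2) (Fin 2) k).charpoly.IsRoot α → α ^ n = 1 := by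
  obtain ⟨c, hc⟩ := exists_eigChar B v hv hB
  set d : B →* kˣ := (Matrix.GeneralLinearGroup.det.comp B.subtype) * c⁻¹ with hd
  set φ : B →* kˣ × kˣ := c.prod d with hφ
  have hcd : ∀ g : B, ((c g : kˣ) : k) * ((d g : kˣ) : k)
      = ((g : GL (Fin 2) k) : Matrix (Fin 2) (Fin 2) k).det := by
    intro g
    have : c g * d g = Matrix.GeneralLinearGroup.det (g : GL (Fin 2) k) := by
      rw [hd]
      simp
    rw [← Units.val_mul, this]
    rfl
  have hpoly : ∀ g : B, rootsPoly (φ g)
      = ((g : GL (Fin 2) k) : Matrix (Fin 2) (Fin 2) k).charpoly := by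
    intro g
    have h1 := trace_eq_of_mulVec _ hv (hc g)
    have hc0 : ((c g : kˣ) : k) ≠ 0 := (c g).ne_zero
    have htr : ((g : GL (Fin 2) k) : Matrix (Fin 2) (Fin 2) k).trace
        = ((c g : kˣ) : k) + ((d g : kˣ) : k) := by
      rw [← hcd g] at h1
      have : ((c g : kˣ) : k) * (((c g : kˣ) : k) + ((d g : kˣ) : k)
          - ((g : GL (Fin 2) k) : Matrix (Fin 2) (Fin 2) k).trace) = 0 := by
        linear_combination h1
      rcases mul_eq_zero.1 this with h | h
      · exact absurd h hc0
      · linear_combination -h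
    rw [Matrix.charpoly_fin_two, htr, ← hcd g]
    simp only [rootsPoly, hφ, MonoidHom.prod_apply, map_add, map_mul]
    ring
  have hP' : 2 * Nat.card {g : B // rootsPoly (φ g) ∉ P} ≤ Nat.card B := by
    simpa only [hpoly] using hP
  have hcard := card_range_le_of_half φ rootsPoly Prod.swap P rootsPoly_eq_imp hP'
  have hfin : Finite φ.range := (Set.finite_range φ).to_subtype
  refine ⟨Nat.card φ.range, Nat.card_pos, hcard, fun g hg α hα => ?_⟩
  have hpow : (φ ⟨g, hg⟩) ^ Nat.card φ.range = 1 := by
    have := pow_card_eq_one' (x := (⟨φ ⟨g, hg⟩, ⟨g, hg⟩, rfl⟩ : φ.range))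
    exact congrArg Subtype.val this
  have e1 : ((c ⟨g, hg⟩ : kˣ) : k) ^ Nat.card φ.range = 1 := by
    have := congrArg (fun x : kˣ × kˣ => ((x.1 : kˣ) : k)) hpow
    simpa [hφ] using this
  have e2 : ((d ⟨g, hg⟩ : kˣ) : k) ^ Nat.card φ.range = 1 := by
    have := congrArg (fun x : kˣ × kˣ => ((x.2 : kˣ) : k)) hpow
    simpa [hφ] using this
  have hr := hpoly ⟨g, hg⟩
  rw [← show rootsPoly (φ ⟨g, hg⟩) = (g : Matrix (Fin 2) (Fin 2) k).charpoly from hr] at hα
  simp only [rootsPoly, hφ, MonoidHom.prod_apply, IsRoot.def, eval_mul, eval_sub, eval_X,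
    eval_C, mul_eq_zero, sub_eq_zero] at hα
  rcases hα with rfl | rfl
  · exact e1
  · exact e2

end Fermat.Agent.S48
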