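import Fermat.Agent.S48.Group.C1
import Fermat.Agent.S48.Group.C2
import Fermat.Agent.S48.Group.C3

/-! # S48, block (C): assembly -/

set_option autoImplicit false

namespace Fermat.Agent.S48

open Polynomial

variable {k : Type*} [Field k]

theorem lineStab_le (G : Subgroup (GL (Fin 2) k)) (v : Fin 2 → k) : lineStab G v ≤ G :=
  fun _ h => h.1

theorem lineStab_lineStab (G : Subgroup (GL (Fin 2) k)) (v : Fin 2 → k) :
    lineStab (lineStab G v) v = lineStab G v :=
  le_antisymm (lineStab_le _ _) (fun _ h => ⟨h, h.2⟩)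

/-- roots of the characteristic polynomial are eigenvalues -/
theorem isRoot_charpoly_iff (M : Matrix (Fin 2) (Fin 2) k) (α : k) :
    M.charpoly.IsRoot α ↔ ∃ v : Fin 2 → k, v ≠ 0 ∧ M.mulVec v = α • v := by
  rw [IsRoot.def, Matrix.eval_charpoly, ← Matrix.exists_mulVec_eq_zero_iff]
  refine exists_congr fun v => and_congr_right fun _ => ?_
  rw [Matrix.sub_mulVec, sub_eq_zero]
  have : (Matrix.scalar (Fin 2) α).mulVec v = α • v := by
    ext i
    simp [Matrix.scalar_apply]
  rw [this, eq_comm]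

theorem isRoot_charpoly_pow {M : Matrix (Fin 2) (Fin 2) k} {α : k} (h : M.charpoly.IsRoot α)
    (j : ℕ) : (M ^ j).charpoly.IsRoot (α ^ j) := by
  rw [isRoot_charpoly_iff] at h ⊢
  obtain ⟨v, hv, h⟩ := h
  refine ⟨v, hv, ?_⟩
  induction j with
  | zero => simp
  | succ j ih => rw [pow_succ, ← Matrix.mulVec_mulVec, h, Matrix.mulVec_smul, ih, smul_smul,
      pow_succ, mul_comm]

theorem card_bad_le {G B : Subgroup (GL (Fin 2) k)} [Finite G] (hBG : B ≤ G)
    (p : GL (Fin 2) k → Prop) :
    Nat.card {g : B // p g} ≤ Nat.card {g : G // p g} :=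
  Nat.card_le_card_of_injective
    (fun g : {g : B // p g} => (⟨⟨g.1.1, hBG g.1.2⟩, g.2⟩ : {g : G // p g}))
    (fun a b h => by
      have : (a.1.1 : GL (Fin 2) k) = b.1.1 := congrArg (fun x : {g : G // p g} => x.1.1) h
      exact Subtype.ext (Subtype.ext this))

/-- **(C) = (C1) + (C2) + (C3).** -/
theorem eigenvalue_pow_eq_one [IsAlgClosed k] (G : Subgroup (GL (Fin 2) k)) [Finite G]
    (P : Finset k[X])
    (hP : 24 * Nat.card {g : G // ((g : GL (Fin 2) k) : Matrix (Fin 2) (Fin 2) k).charpoly ∉ P} ≤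
      Nat.card G)
    (hchar : ∀ ℓ : ℕ, ℓ.Prime → (ℓ : k) = 0 → 2 * (P.card + 1) < ℓ)
    (g : GL (Fin 2) k) (hg : g ∈ G) (α : k)
    (hα : (g : Matrix (Fin 2) (Fin 2) k).charpoly.IsRoot α) :
    α ^ (48 * P.card).factorial = 1 := by
  have hGpos : 0 < Nat.card G := Nat.card_pos
  -- the conclusion from a subgroup `B` of index `≤ 12` stabilising a line
  have main : ∀ v : Fin 2 → k, v ≠ 0 → Nat.card G ≤ 12 * Nat.card (lineStab G v) →
      α ^ (48 * P.card).factorial = 1 := by
    intro v hv hidx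
    set B := lineStab G v with hBdef
    have hBG : B ≤ G := lineStab_le G v
    have : Finite B := Finite.of_injective (Subgroup.inclusion hBG) (Subgroup.inclusion_injective hBG)
    have hBpos : 0 < Nat.card B := Nat.card_pos
    have hbad := card_bad_le hBG
      (fun g => ((g : GL (Fin 2) k) : Matrix (Fin 2) (Fin 2) k).charpoly ∉ P)
    obtain ⟨n, hn0, hn, hroot⟩ := exists_exponent_of_lineStab B v hv (lineStab_lineStab G v) P
      (by omega)
    have hrel : Nat.card B * B.relIndex G = Nat.card G := by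
      have := Subgroup.relIndex_mul_relIndex ⊥ B G bot_le hBG
      rwa [Subgroup.relIndex_bot_left, Subgroup.relIndex_bot_left] at this
    have hrel0 : B.relIndex G ≠ 0 := by
      intro h0
      rw [h0, mul_zero] at hrel
      omega
    have hrel12 : B.relIndex G ≤ 12 := by
      have : Nat.card B * B.relIndex G ≤ Nat.card B * 12 := by rw [hrel]; omega
      exact Nat.le_of_mul_le_mul_left this hBpos
    obtain ⟨j, hj0, hj, hgj⟩ := Subgroup.exists_pow_mem_of_relIndex_ne_zero hrel0 hg
    have h1 := hroot (g ^ j) hgj.1 (α ^ j) (by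
      rw [Units.val_pow_eq_pow_val]; exact isRoot_charpoly_pow hα j)
    rw [← pow_mul] at h1
    have hdvd : j * n ∣ (48 * P.card).factorial := by
      refine Nat.dvd_factorial (Nat.mul_pos hj0 hn0) ?_
      calc j * n ≤ 12 * (4 * P.card) := Nat.mul_le_mul (hj.trans hrel12) hn
        _ = 48 * P.card := by ring
    obtain ⟨q, hq⟩ := hdvd
    rw [hq, pow_mul, h1, one_pow]
  by_cases hdiv : ∃ ℓ : ℕ, ℓ.Prime ∧ (ℓ : k) = 0 ∧ ℓ ∣ Nat.card G
  · obtain ⟨ℓ, hℓ, hℓk, hdvd⟩ := hdiv
    by_cases hinv : ∃ v : Fin 2 → k, v ≠ 0 ∧ lineStab G v = G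
    · obtain ⟨v, hv, hGv⟩ := hinv
      exact main v hv (by rw [hGv]; omega)
    · exfalso
      push Not at hinv
      have h1 := card_charpoly_mem_le_of_dvd ℓ hℓ hℓk G hdvd hinv P
      have h2 : Nat.card {g : G // ((g : GL (Fin 2) k) : Matrix (Fin 2) (Fin 2) k).charpoly ∈ P}
          + Nat.card {g : G // ((g : GL (Fin 2) k) : Matrix (Fin 2) (Fin 2) k).charpoly ∉ P}
          = Nat.card G := by
        classical
        rw [← Nat.card_sum]
        exact Nat.card_congr (Equiv.sumCompl _)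
      have h3 := hchar ℓ hℓ hℓk
      have h4 : Nat.card G ≤
          2 * Nat.card {g : G // ((g : GL (Fin 2) k) : Matrix (Fin 2) (Fin 2) k).charpoly ∈ P} := by
        omega
      have h5 : ℓ * Nat.card G ≤ (2 * (P.card + 1)) * Nat.card G := by
        calc ℓ * Nat.card G ≤ ℓ * (2 * Nat.card
              {g : G // ((g : GL (Fin 2) k) : Matrix (Fin 2) (Fin 2) k).charpoly ∈ P}) :=
              Nat.mul_le_mul_left ℓ h4
          _ = 2 * (ℓ * Nat.card
              {g : G // ((g : GL (Fin 2) k) : Matrix (Fin 2) (Fin 2) k).charpoly ∈ P}) := by ring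
          _ ≤ 2 * ((P.card + 1) * Nat.card G) := Nat.mul_le_mul_left 2 h1
          _ = _ := by ring
      have h6 := Nat.le_of_mul_le_mul_right h5 hGpos
      omega
  · push Not at hdiv
    obtain ⟨v, hv, hidx⟩ := exists_lineStab_index_le G hdiv
    exact main v hv hidx

end Fermat.Agent.S48
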