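import Fermat.Agent.S48.Group.Defs

/-! # S48, block (C): (C1) the case `ℓ ∣ #G` -/

set_option autoImplicit false

namespace Fermat.Agent.S48

open Polynomial

variable {k : Type*} [Field k]

namespace C1

/-- the standard alternating form on `k²`. -/
def om (x y : Fin 2 → k) : k := x 0 * y 1 - x 1 * y 0

/-- the nilpotent matrix `x ↦ c ω(v, x) v`. -/
def nilMat (c : k) (v : Fin 2 → k) : Matrix (Fin 2) (Fin 2) k :=
  !![-(c * v 0 * v 1), c * v 0 * v 0; -(c * v 1 * v 1), c * v 0 * v 1]

theorem nilMat_mulVec (c : k) (v x : Fin 2 → k) :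
    (nilMat c v).mulVec x = (c * om v x) • v := by
  ext i
  fin_cases i <;> simp [nilMat, om, Matrix.mulVec, dotProduct, Fin.sum_univ_two] <;> ring

theorem nilMat_mul_self (c : k) (v : Fin 2 → k) : nilMat c v * nilMat c v = 0 := by
  ext i j
  fin_cases i <;> fin_cases j <;> simp [nilMat, Matrix.mul_apply, Fin.sum_univ_two] <;> ring

theorem trace_mul_nilMat (g : Matrix (Fin 2) (Fin 2) k) (c : k) (v : Fin 2 → k) :
    (g * nilMat c v).trace = c * om v (g.mulVec v) := by
  simp [nilMat, om, Matrix.trace_fin_two, Matrix.mul_apply, Matrix.mulVec, dotProduct,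
    Fin.sum_univ_two]
  ring

/-- structure of a nonzero `2 × 2` matrix with trace and determinant zero. -/
theorem exists_eq_nilMat {E : Matrix (Fin 2) (Fin 2) k} (h0 : E ≠ 0) (htr : E.trace = 0)
    (hdet : E.det = 0) : ∃ (c : k) (v : Fin 2 → k), c ≠ 0 ∧ v ≠ 0 ∧ E = nilMat c v := by
  rw [Matrix.trace_fin_two] at htr
  rw [Matrix.det_fin_two] at hdet
  have h11 : E 1 1 = - E 0 0 := by linear_combination htr
  by_cases hb : E 0 1 = 0
  · have ha : E 0 0 = 0 := by
      have : E 0 0 * E 0 0 = 0 := by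
        rw [h11, hb] at hdet
        linear_combination -hdet
      exact mul_self_eq_zero.1 this
    have hc : E 1 0 ≠ 0 := by
      intro hc
      apply h0
      ext i j
      fin_cases i <;> fin_cases j <;> simp [ha, hb, hc, h11]
    refine ⟨-E 1 0, ![0, 1], neg_ne_zero.2 hc, ?_, ?_⟩
    · intro h
      have := congrFun h 1
      simp at this
    · ext i j
      fin_cases i <;> fin_cases j <;> simp [nilMat, ha, hb, h11]
  · refine ⟨(E 0 1)⁻¹, ![E 0 1, - E 0 0], inv_ne_zero hb, ?_, ?_⟩
    · intro h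
      have := congrFun h 0
      simp at this
      exact hb this
    · rw [h11] at hdet
      ext i j
      fin_cases i <;> fin_cases j <;> simp [nilMat, h11] <;> field_simp
      linear_combination -hdet

theorem exists_smul_of_om_eq_zero {v w : Fin 2 → k} (hv : v ≠ 0) (h : om v w = 0) :
    ∃ c : k, w = c • v := by
  unfold om at h
  by_cases h0 : v 0 = 0
  · have h1 : v 1 ≠ 0 := by
      intro h1
      apply hv
      ext i
      fin_cases i <;> simp [h0, h1]
    refine ⟨w 1 / v 1, ?_⟩
    ext i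
    fin_cases i
    · simp only [Fin.zero_eta, Pi.smul_apply, smul_eq_mul, h0, mul_zero]
      rw [h0, zero_mul, zero_sub, neg_eq_zero] at h
      exact (mul_eq_zero.1 h).resolve_left h1
    · simp only [Fin.mk_one, Pi.smul_apply, smul_eq_mul]
      field_simp
  · refine ⟨w 0 / v 0, ?_⟩
    ext i
    fin_cases i
    · simp only [Fin.zero_eta, Pi.smul_apply, smul_eq_mul]
      field_simp
    · simp only [Fin.mk_one, Pi.smul_apply, smul_eq_mul]
      field_simp
      linear_combination h

theorem om_smul_right (v w : Fin 2 → k) (c : k) : om v (c • w) = c * om v w := by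
  simp [om]; ring

theorem om_add_right (v w w' : Fin 2 → k) : om v (w + w') = om v w + om v w' := by
  simp [om]; ring

theorem om_self (v : Fin 2 → k) : om v v = 0 := by
  simp [om]; ring

theorem one_add_pow_of_sq_zero {E : Matrix (Fin 2) (Fin 2) k} (hE : E * E = 0) (t : ℕ) :
    (1 + E) ^ t = 1 + (t : k) • E := by
  induction t with
  | zero => simp
  | succ t ih =>
    rw [pow_succ, ih, mul_add, mul_one, add_mul, one_mul, Matrix.smul_mul, hE, smul_zero, add_zero,
      Nat.cast_succ, add_smul, one_smul, add_assoc]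

end C1

/-- **(C1)** `ℓ ∣ #G`, no invariant line: at most `(M+1)/ℓ` of the elements have their
characteristic polynomial in a given set of `M` polynomials.
Proof: `u ∈ G` of order `ℓ`, `u = 1 + E`, `D = ker E`, `U = ⟨u⟩`, `B = lineStab G D`.
For `g ∉ B` the `ℓ` elements of `g U` have distinct traces `tr g + t tr (g E)`;
`[G : B] ≥ ℓ` because `U` acts freely on the lines `≠ D` and `G D ≠ {D}`. -/
theorem card_charpoly_mem_le_of_dvd [IsAlgClosed k] (ℓ : ℕ) (hℓ : ℓ.Prime) (hk : (ℓ : k) = 0)
    (G : Subgroup (GL (Fin 2) k)) [Finite G] (hdvd : ℓ ∣ Nat.card G)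
    (hirr : ∀ v : Fin 2 → k, v ≠ 0 → lineStab G v ≠ G) (P : Finset k[X]) :
    ℓ * Nat.card {g : G // ((g : GL (Fin 2) k) : Matrix (Fin 2) (Fin 2) k).charpoly ∈ P} ≤
      (P.card + 1) * Nat.card G := by
  classical
  have : Fact ℓ.Prime := ⟨hℓ⟩
  have : CharP k ℓ := (CharP.charP_iff_prime_eq_zero hℓ).2 hk
  obtain ⟨u, hu⟩ := exists_prime_orderOf_dvd_card' (G := G) ℓ hdvd
  set A : Matrix (Fin 2) (Fin 2) k := ((u : GL (Fin 2) k) : Matrix (Fin 2) (Fin 2) k) with hA
  have hAℓ : A ^ ℓ = 1 := by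
    have h1 : u ^ ℓ = 1 := by rw [← hu]; exact pow_orderOf_eq_one u
    have h2 := congrArg (fun x : G => ((x : GL (Fin 2) k) : Matrix (Fin 2) (Fin 2) k)) h1
    simpa using h2
  have hA1 : A ≠ 1 := by
    intro h
    have : u = 1 := by
      apply Subtype.ext; apply Units.ext; exact h
    rw [this, orderOf_one] at hu
    exact hℓ.one_lt.ne hu
  set E := A - 1 with hE
  have hEℓ : E ^ ℓ = 0 := by
    rw [hE, sub_pow_char_of_commute ℓ (Commute.one_right A), hAℓ, one_pow, sub_self]
  have hE0 : E ≠ 0 := sub_ne_zero.2 hA1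
  have htr : E.trace = 0 := (Matrix.isNilpotent_trace_of_isNilpotent ⟨ℓ, hEℓ⟩).eq_zero
  have hdet : E.det = 0 := by
    have := congrArg Matrix.det hEℓ
    rw [Matrix.det_pow, Matrix.det_zero] at this
    exact (pow_eq_zero_iff hℓ.ne_zero).1 this
  obtain ⟨c, v, hc, hv, hEcv⟩ := C1.exists_eq_nilMat hE0 htr hdet
  have hEE : E * E = 0 := by rw [hEcv]; exact C1.nilMat_mul_self c v
  have hupow : ∀ t : ℕ, (((u ^ t : G) : GL (Fin 2) k) : Matrix (Fin 2) (Fin 2) k) =
      1 + (t : k) • E := by
    intro t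
    have : A = 1 + E := by rw [hE]; abel
    rw [← C1.one_add_pow_of_sq_zero hEE, ← this]
    simp [hA]
  -- outside the stabiliser
  have hout : ∀ g : GL (Fin 2) k, g ∈ G → g ∉ lineStab G v →
      C1.om v ((g : Matrix (Fin 2) (Fin 2) k).mulVec v) ≠ 0 := by
    intro g hg hgB h0
    obtain ⟨d, hd⟩ := C1.exists_smul_of_om_eq_zero hv h0
    apply hgB
    refine ⟨hg, d, ?_, hd⟩
    rintro rfl
    rw [zero_smul] at hd
    apply hv
    have := congrArg ((g⁻¹ : GL (Fin 2) k) : Matrix (Fin 2) (Fin 2) k).mulVec hd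
    rw [Matrix.mulVec_mulVec, ← Units.val_mul, inv_mul_cancel, Units.val_one, Matrix.one_mulVec,
      Matrix.mulVec_zero] at this
    exact this
  have hcast : ∀ t t' : Fin ℓ, ((t : ℕ) : k) = ((t' : ℕ) : k) → t = t' := by
    intro t t' h
    exact Fin.ext (((CharP.natCast_eq_natCast k ℓ).1 h).eq_of_lt_of_lt t.2 t'.2)
  obtain ⟨g₀, hg₀G, hg₀B⟩ : ∃ g₀, g₀ ∈ G ∧ g₀ ∉ lineStab G v := by
    by_contra hcon
    push Not at hcon
    exact hirr v hv (le_antisymm (fun g hg => hg.1) hcon)
  -- first injection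
  have hB : ℓ * Nat.card {g : G // (g : GL (Fin 2) k) ∈ lineStab G v} ≤ Nat.card G := by
    let f1 : Fin ℓ × {g : G // (g : GL (Fin 2) k) ∈ lineStab G v} → G :=
      fun x => u ^ (x.1 : ℕ) * ⟨g₀, hg₀G⟩ * x.2.1
    have hf1 : Function.Injective f1 := by
      rintro ⟨t, b, hb⟩ ⟨t', b', hb'⟩ h
      simp only [f1] at h
      obtain ⟨-, β, hβ, hbv⟩ := hb
      obtain ⟨-, β', hβ', hbv'⟩ := hb'
      set w := (g₀ : Matrix (Fin 2) (Fin 2) k).mulVec v with hw
      have hμ : c * C1.om v w ≠ 0 := mul_ne_zero hc (hout g₀ hg₀G hg₀B)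
      have hmat := congrArg (fun x : G => ((x : GL (Fin 2) k) : Matrix (Fin 2) (Fin 2) k).mulVec v) h
      simp only [Subgroup.coe_mul, Units.val_mul, ← Matrix.mulVec_mulVec, hbv, hbv', hupow,
        Matrix.mulVec_smul, ← hw, Matrix.add_mulVec, Matrix.one_mulVec, Matrix.smul_mulVec,
        hEcv, C1.nilMat_mulVec] at hmat
      have h1 := congrArg (C1.om v) hmat
      simp only [C1.om_smul_right, C1.om_add_right, C1.om_self, mul_zero, add_zero] at h1
      have hββ : β = β' := mul_right_cancel₀ (right_ne_zero_of_mul hμ) h1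
      subst hββ
      have h2 := smul_right_injective _ hβ hmat
      have h3 := add_left_cancel h2
      rw [smul_smul, smul_smul] at h3
      have h4 := smul_left_injective k hv h3
      have h5 : t = t' := hcast t t' (mul_right_cancel₀ hμ h4)
      subst h5
      have h6 := mul_left_cancel h
      simp [h6]
    have := Nat.card_le_card_of_injective f1 hf1
    rwa [Nat.card_prod, Nat.card_eq_fintype_card (α := Fin ℓ), Fintype.card_fin] at this
  -- second injection
  have hS : ℓ * Nat.card {g : G // (g : GL (Fin 2) k) ∉ lineStab G v ∧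
      ((g : GL (Fin 2) k) : Matrix (Fin 2) (Fin 2) k).charpoly ∈ P} ≤ P.card * Nat.card G := by
    let f2 : Fin ℓ × {g : G // (g : GL (Fin 2) k) ∉ lineStab G v ∧
        ((g : GL (Fin 2) k) : Matrix (Fin 2) (Fin 2) k).charpoly ∈ P} → P × G :=
      fun x => (⟨_, x.2.2.2⟩, x.2.1 * u ^ (x.1 : ℕ))
    have hf2 : Function.Injective f2 := by
      rintro ⟨t, g, hgB, hgP⟩ ⟨t', g', hgB', hgP'⟩ h
      simp only [f2, Prod.mk.injEq, Subtype.mk.injEq] at h
      obtain ⟨hcp, h⟩ := h
      set M := ((g : GL (Fin 2) k) : Matrix (Fin 2) (Fin 2) k) with hM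
      set M' := ((g' : GL (Fin 2) k) : Matrix (Fin 2) (Fin 2) k) with hM'
      have htrM : M.trace = M'.trace := by
        rw [Matrix.trace_eq_neg_charpoly_coeff, Matrix.trace_eq_neg_charpoly_coeff, hcp]
      have hmat := congrArg (fun x : G => ((x : GL (Fin 2) k) : Matrix (Fin 2) (Fin 2) k)) h
      simp only [Subgroup.coe_mul, Units.val_mul, hupow, ← hM, ← hM'] at hmat
      have hME : M * E = M' * E := by
        have h1 := congrArg (fun X => X * E) hmat
        simpa only [Matrix.mul_assoc, add_mul, one_mul, Matrix.smul_mul, hEE, smul_zero,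
          add_zero] using h1
      have hτ : (M * E).trace ≠ 0 := by
        rw [hEcv, C1.trace_mul_nilMat]
        exact mul_ne_zero hc (hout g g.2 hgB)
      have h2 := congrArg Matrix.trace hmat
      simp only [mul_add, mul_one, Matrix.mul_smul, Matrix.trace_add, Matrix.trace_smul,
        smul_eq_mul, ← hME, htrM] at h2
      have h5 : t = t' := hcast t t' (mul_right_cancel₀ hτ (add_left_cancel h2))
      subst h5
      have h6 := mul_right_cancel h
      simp [h6]
    have := Nat.card_le_card_of_injective f2 hf2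
    rwa [Nat.card_prod, Nat.card_prod, Nat.card_eq_fintype_card (α := Fin ℓ), Fintype.card_fin,
      Nat.card_eq_fintype_card (α := P), Fintype.card_coe] at this
  -- the count
  have : Fintype G := Fintype.ofFinite G
  have hcount : Nat.card {g : G // ((g : GL (Fin 2) k) : Matrix (Fin 2) (Fin 2) k).charpoly ∈ P} ≤
      Nat.card {g : G // (g : GL (Fin 2) k) ∈ lineStab G v} +
      Nat.card {g : G // (g : GL (Fin 2) k) ∉ lineStab G v ∧
        ((g : GL (Fin 2) k) : Matrix (Fin 2) (Fin 2) k).charpoly ∈ P} := by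
    rw [Nat.card_eq_fintype_card, Nat.card_eq_fintype_card, Nat.card_eq_fintype_card,
      Fintype.card_subtype, Fintype.card_subtype, Fintype.card_subtype]
    refine le_trans (Finset.card_le_card ?_) (Finset.card_union_le _ _)
    intro g hg
    rw [Finset.mem_filter] at hg
    rw [Finset.mem_union, Finset.mem_filter, Finset.mem_filter]
    by_cases h : (g : GL (Fin 2) k) ∈ lineStab G v
    · exact Or.inl ⟨Finset.mem_univ _, h⟩
    · exact Or.inr ⟨Finset.mem_univ _, h, hg.2⟩
  calc ℓ * Nat.card {g : G // ((g : GL (Fin 2) k) : Matrix (Fin 2) (Fin 2) k).charpoly ∈ P}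
      ≤ ℓ * (Nat.card {g : G // (g : GL (Fin 2) k) ∈ lineStab G v} +
      Nat.card {g : G // (g : GL (Fin 2) k) ∉ lineStab G v ∧
        ((g : GL (Fin 2) k) : Matrix (Fin 2) (Fin 2) k).charpoly ∈ P}) :=
        Nat.mul_le_mul_left _ hcount
    _ ≤ (P.card + 1) * Nat.card G := by
        rw [mul_add, add_mul, one_mul]
        omega

end Fermat.Agent.S48
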