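import Mathlib

/-!
# S48, block (C): finite subgroups of `GL₂(k)` with few characteristic polynomials

Replaces Deligne–Serre Prop. 7.2 (no Dickson classification, `k` algebraically closed).
-/

set_option autoImplicit false

namespace Fermat.Agent.S48

open Polynomial

variable {k : Type*} [Field k]

/-- The stabiliser in `G` of the line spanned by `v`. -/
def lineStab (G : Subgroup (GL (Fin 2) k)) (v : Fin 2 → k) : Subgroup (GL (Fin 2) k) where
  carrier := {g | g ∈ G ∧ ∃ c : k, c ≠ 0 ∧ (g : Matrix (Fin 2) (Fin 2) k).mulVec v = c • v}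
  one_mem' := ⟨G.one_mem, 1, one_ne_zero, by simp⟩
  mul_mem' := by
    rintro a b ⟨ha, c, hc, hac⟩ ⟨hb, d, hd, hbd⟩
    refine ⟨G.mul_mem ha hb, c * d, mul_ne_zero hc hd, ?_⟩
    rw [Units.val_mul, ← Matrix.mulVec_mulVec, hbd, Matrix.mulVec_smul, hac, smul_smul, mul_comm]
  inv_mem' := by
    rintro a ⟨ha, c, hc, hac⟩
    refine ⟨G.inv_mem ha, c⁻¹, inv_ne_zero hc, ?_⟩
    have h1 : ((a⁻¹ : GL (Fin 2) k) : Matrix (Fin 2) (Fin 2) k).mulVec
        ((a : Matrix (Fin 2) (Fin 2) k).mulVec v) = v := by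
      rw [Matrix.mulVec_mulVec, ← Units.val_mul, inv_mul_cancel, Units.val_one, Matrix.one_mulVec]
    rw [hac, Matrix.mulVec_smul] at h1
    calc ((a⁻¹ : GL (Fin 2) k) : Matrix (Fin 2) (Fin 2) k).mulVec v
        = c⁻¹ • (c • ((a⁻¹ : GL (Fin 2) k) : Matrix (Fin 2) (Fin 2) k).mulVec v) := by
          rw [smul_smul, inv_mul_cancel₀ hc, one_smul]
      _ = c⁻¹ • v := by rw [h1]

end Fermat.Agent.S48
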